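import Fermat.Agent.LT.Base.Residue
import Fermat.Agent.LocalP.Minkowski
import Fermat.Agent.LocalP.Places
import Fermat.Prelude.Def_GaloisRep_ComplexConjugation

set_option autoImplicit false

/-!
# A representation which is supersingular at `3` and unipotent elsewhere is surjective

The image contains a cyclic group `C` of order eight. Without elements of order three it would be a
`2`-group in which `C` is normal, so unramified modulo `C`, so equal to `C` by Minkowski; but `C`
contains no involution of determinant `-1`.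
-/

noncomputable section

open Matrix

namespace FermatAgent.LT.Curve

local notation "Qb" => AlgebraicClosure ℚ
local notation "GQ" => AlgebraicClosure ℚ ≃ₐ[ℚ] AlgebraicClosure ℚ
local notation "M2" => Matrix (Fin 2) (Fin 2) (ZMod 3)
local notation "GL23" => GL (Fin 2) (ZMod 3)

open GL2F3 in
theorem tsl2_elementary : ∀ h : Tup, tdet h = 1 → ∃ a b c d : ZMod 3,
    tmul (tmul (1, a, 0, 1) (1, 0, b, 1)) (tmul (1, c, 0, 1) (1, 0, d, 1)) = h := by
  decide +kernel

open GL2F3 in
theorem tpow_three_upper : ∀ a : ZMod 3,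
    tpow (1, a, 0, 1) 3 = (1, 0, 0, 1) ∧ tpow (1, 0, a, 1) 3 = (1, 0, 0, 1) := by
  decide

open GL2F3 in
theorem toct_involution : ∀ g : Tup, TOct g → ∀ k : Fin 8, tdet (tpow g k.1) = -1 →
    tpow g (2 * k.1) ≠ (1, 0, 0, 1) := by
  decide +kernel

theorem card_GL : Nat.card GL23 = 48 := by
  rw [Matrix.card_GL_field]
  simp [Fin.prod_univ_two]

/-- A subgroup of order divisible by `24` containing an element of determinant `-1` is everything. -/
theorem eq_top_of_dvd_card {G : Subgroup GL23} (h : 24 ∣ Nat.card G) {g : GL23} (hg : g ∈ G)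
    (hd : (g : M2).det = -1) : G = ⊤ := by
  classical
  have hmul := G.index_mul_card
  rw [card_GL] at hmul
  obtain ⟨c, hc⟩ := h
  rw [hc, ← mul_assoc, mul_comm G.index, mul_assoc] at hmul
  have hi : G.index = 1 ∨ G.index = 2 := by
    have : G.index ∣ 2 := ⟨c, by omega⟩
    exact (Nat.dvd_prime Nat.prime_two).mp this
  rcases hi with hi | hi
  · exact Subgroup.index_eq_one.mp hi
  have hthree : ∀ u : GL23, u ^ 3 = 1 → u ∈ G := fun u hu => by
    have : u * u ∈ G := Subgroup.mul_self_mem_of_index_two hi u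
    have e : u = (u * u) * (u * u) := by
      rw [show u * u * (u * u) = u * u ^ 3 by simp [pow_succ, mul_assoc], hu, mul_one]
    rw [e]; exact G.mul_mem this this
  have helem : ∀ t : GL2F3.Tup, GL2F3.tpow t 3 = (1, 0, 0, 1) →
      ∃ u ∈ G, GL2F3.toTup (u : M2) = t := fun t ht => by
    let M : M2 := !![t.1, t.2.1; t.2.2.1, t.2.2.2]
    have hM : GL2F3.toTup M = t := by simp [GL2F3.toTup, M]
    have hM3 : M ^ 3 = 1 := GL2F3.toTup_injective (by
      rw [GL2F3.toTup_pow, hM, ht, GL2F3.toTup_one])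
    exact ⟨Units.ofPowEqOne M 3 hM3 (by norm_num), hthree _ (Units.pow_ofPowEqOne hM3 _), hM⟩
  have hsl : ∀ s : GL23, (s : M2).det = 1 → s ∈ G := fun s hs => by
    obtain ⟨a, b, c, d, e⟩ := tsl2_elementary (GL2F3.toTup (s : M2))
      (by rw [GL2F3.tdet_toTup, hs])
    obtain ⟨ua, hua, ea⟩ := helem _ (tpow_three_upper a).1
    obtain ⟨ub, hub, eb⟩ := helem _ (tpow_three_upper b).2
    obtain ⟨uc, huc, ec⟩ := helem _ (tpow_three_upper c).1
    obtain ⟨ud, hud, ed⟩ := helem _ (tpow_three_upper d).2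
    have : s = ua * ub * (uc * ud) := Units.ext (GL2F3.toTup_injective (by
      simp only [Units.val_mul, GL2F3.toTup_mul, ea, eb, ec, ed, e]))
    rw [this]
    exact G.mul_mem (G.mul_mem hua hub) (G.mul_mem huc hud)
  refine eq_top_iff.mpr fun s _ => ?_
  have hs0 : (s : M2).det ≠ 0 := s.det_ne_zero
  rcases (by decide : ∀ z : ZMod 3, z ≠ 0 → z = 1 ∨ z = -1) _ hs0 with hs | hs
  · exact hsl s hs
  · have := G.mul_mem (hsl (s * g) (by rw [Units.val_mul, det_mul, hs, hd]; decide))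
      (G.inv_mem hg)
    rwa [mul_inv_cancel_right] at this

variable {ρ : GQ →* GL23}

theorem surjective_of_supersingular (hfin : GaloisFactorsThroughFiniteLevel ρ)
    (hss : ∀ A : ValuationSubring Qb, A.LiesOverPrime 3 →
      ∃ σ ∈ A.inertiaSubgroupIn ℚ, orderOf (ρ σ) = 8)
    (hunip : ∀ q : ℕ, q.Prime → q ≠ 3 → ∀ A : ValuationSubring Qb, A.LiesOverPrime q →
      ∀ σ ∈ A.inertiaSubgroupIn ℚ, ρ σ ^ 3 = 1)
    {c : GQ} (hc : c * c = 1) (hdet : (ρ c : M2).det = -1) : Function.Surjective ρ := by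
  classical
  obtain ⟨A, hA⟩ := RT.exists_liesOverPrime Nat.prime_three
  obtain ⟨τ, hτ, hoct, h8, hgen⟩ := Setup.exists_oct_generator_of hfin hA (hss A hA)
  obtain ⟨σ₈, hσ₈, hord⟩ := hss A hA
  have hτmem : ρ τ ∈ ρ.range := ⟨τ, rfl⟩
  have hdτ : (ρ τ : M2).det = -1 := by rw [← GL2F3.tdet_toTup]; exact hoct.1
  have h8G : 8 ∣ Nat.card ρ.range := hord ▸ Subgroup.orderOf_dvd_natCard _ ⟨σ₈, rfl⟩
  rw [← MonoidHom.range_eq_top]
  by_cases h3 : 3 ∣ Nat.card ρ.range
  · exact eq_top_of_dvd_card (Nat.Coprime.mul_dvd_of_dvd_of_dvd (by norm_num) h8G h3 :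
      8 * 3 ∣ _) hτmem hdτ
  exfalso
  -- inertia away from `3` is trivial
  have hI3 : ∀ q : ℕ, q.Prime → q ≠ 3 → ∀ B : ValuationSubring Qb, B.LiesOverPrime q →
      ∀ σ ∈ B.inertiaSubgroupIn ℚ, ρ σ = 1 := fun q hq hq3 B hB σ hσ => by
    by_contra hne
    refine h3 ?_
    have h := orderOf_eq_prime (hunip q hq hq3 B hB σ hσ) hne
    have h' := Subgroup.orderOf_dvd_natCard ρ.range ⟨σ, rfl⟩
    rwa [h] at h'
  have hordτ : orderOf (ρ τ) = 8 :=
    orderOf_eq_prime_pow (p := 2) (n := 2)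
      (fun h => hoct.2.1 ((Setup.tpow_eq_one_iff _ 4).2 h)) h8
  set C : Subgroup ρ.range := (Subgroup.zpowers (ρ τ)).subgroupOf ρ.range
  have hCle : Subgroup.zpowers (ρ τ) ≤ ρ.range := Subgroup.zpowers_le.mpr hτmem
  have hCcard : Nat.card C = 8 := by
    rw [Nat.card_congr (Subgroup.subgroupOfEquivOfLe hCle).toEquiv, Nat.card_zpowers, hordτ]
  have hCn : C.Normal := by
    have h16 : Nat.card ρ.range ∣ 16 :=
      (Nat.Coprime.dvd_of_dvd_mul_right ((Nat.prime_three.coprime_iff_not_dvd.mpr h3).symm) (by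
        rw [show 16 * 3 = Nat.card GL23 by rw [card_GL]]; exact Subgroup.card_subgroup_dvd_card _))
    have hmul := C.index_mul_card
    rw [hCcard] at hmul
    have hi : C.index ∣ 2 := by
      obtain ⟨e, he⟩ := h16
      refine ⟨e, ?_⟩
      have : 8 * (C.index * e) = 16 := by rw [he, ← hmul]; ring
      omega
    rcases (Nat.dvd_prime Nat.prime_two).mp hi with hi | hi
    · rw [Subgroup.index_eq_one.mp hi]; infer_instance
    · exact Subgroup.normal_of_index_eq_two hi
  set N : Subgroup GQ := C.comap ρ.rangeRestrict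
  have : N.Normal := hCn.comap _
  have hmemN : ∀ σ, σ ∈ N ↔ ρ σ ∈ Subgroup.zpowers (ρ τ) := fun σ => Iff.rfl
  obtain ⟨L, hL, h1⟩ := hfin
  have htop : N = ⊤ := LocalP.eq_top_of_inertia_le N L
    (fun σ hσ => by
      rw [hmemN, h1 σ fun x hx => (IntermediateField.mem_fixingSubgroup_iff L σ).mp hσ x hx]
      exact one_mem _)
    fun q hq B hB σ hσ => by
      by_cases hq3 : q = 3
      · subst hq3
        obtain ⟨g, hg⟩ := LocalP.exists_conj_inertia Nat.prime_three hA hB
        have h := (inferInstance : N.Normal).conj_mem _ ((hmemN _).2 (hgen _ (hg σ hσ))) g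
        simpa [mul_assoc] using h
      · rw [hmemN, hI3 q hq hq3 B hB σ hσ]
        exact one_mem _
  obtain ⟨k, hk⟩ := Subgroup.mem_zpowers_iff.1 ((hmemN c).1 (htop ▸ Subgroup.mem_top c))
  have hpow : ρ τ ^ (k % 8).toNat = ρ c := by
    rw [← hk, ← zpow_natCast, Int.toNat_of_nonneg (Int.emod_nonneg _ (by norm_num)),
      show (8 : ℤ) = ((orderOf (ρ τ) : ℕ) : ℤ) by rw [hordτ]; rfl, zpow_mod_orderOf]
  refine toct_involution _ hoct ⟨(k % 8).toNat, by omega⟩ ?_ ?_
  · rw [Setup.toTup_pow_eq, hpow, GL2F3.tdet_toTup, hdet]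
  · rw [Setup.tpow_eq_one_iff, mul_comm 2, pow_mul, hpow, sq, ← map_mul, hc, map_one]

end FermatAgent.LT.Curve
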