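import Fermat.Agent.LT.Curve.Supersingular
import Fermat.Agent.LT.Curve.Surjective
import Fermat.Agent.GalRep.Density.Conj

set_option autoImplicit false

/-!
# The `Setup` of a semistable curve with good supersingular reduction at `3`
-/

noncomputable section

open WeierstrassCurve WeierstrassCurve.Affine Matrix
open scoped WeierstrassCurve.Affine

namespace FermatAgent.LT.Curve

open FermatAgent.Local

local notation "Qb" => AlgebraicClosure ℚ
local notation "GQ" => AlgebraicClosure ℚ ≃ₐ[ℚ] AlgebraicClosure ℚ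
local notation "M2" => Matrix (Fin 2) (Fin 2) (ZMod 3)
local notation "V2" => Fin 2 → ZMod 3

variable (W : WeierstrassCurve ℤ) (hΔ : (W.map (Int.castRingHom ℚ)).Δ ≠ 0)

/-- `E[3]` as a homomorphism to `GL₂(𝔽₃)`. -/
def rho : GQ →* GL (Fin 2) (ZMod 3) := (Descent3.torsionMatrix W hΔ).toHomUnits

@[simp] theorem coe_rho (σ : GQ) : (rho W hΔ σ : M2) = Descent3.torsionMatrix W hΔ σ := rfl

theorem finiteLevel_rho : GaloisFactorsThroughFiniteLevel (rho W hΔ) := by
  obtain ⟨L, hL, h⟩ := Descent3.torsionMatrix_factors W hΔ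
  exact ⟨L, hL, fun σ hσ => Units.ext (h σ hσ)⟩

theorem det_rho (h3 : W.ModRepIsIrreducible 3) (σ : GQ) :
    Matrix.GeneralLinearGroup.det (rho W hΔ σ) = WeierstrassCurve.modThreeCyclotomicChar σ := by
  have : Fact (Nat.Prime 3) := ⟨Nat.prime_three⟩
  set φ : ℤ_[3] →+* ZMod 3 :=
    (ZMod.castHom (pow_one 3).symm.dvd (ZMod 3)).comp (PadicInt.toZModPow 1)
  have hdet : (Descent3.torsionMatrix W hΔ σ).det = φ (GalRep.cycChar 3 σ) := by
    have hcp : (Descent3.torsionMatrix W hΔ σ).charpoly =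
        ((GalRep.Tate.tateMatHom (p := 3) hΔ σ).map φ).charpoly := by
      rw [Matrix.charpoly_map, ← Conductor.charpoly_torsionRep]
      exact LinearMap.charpoly_toMatrix _ _
    rw [Matrix.det_eq_sign_charpoly_coeff, hcp, ← Matrix.det_eq_sign_charpoly_coeff,
      ← RingHom.mapMatrix_apply, ← RingHom.map_det,
      GalRep.Tate.det_eq_cycChar W hΔ (GalRep.Tate.hasNonscalar_of_irreducible W hΔ h3) σ]
  refine Units.ext (ZMod.val_injective 3 ?_)
  rw [Matrix.GeneralLinearGroup.val_det_apply, coe_rho, hdet]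
  have : NeZero ((3 : ℕ) : Qb) := ⟨by norm_num⟩
  obtain ⟨ζ, hζ⟩ := HasEnoughRootsOfUnity.exists_primitiveRoot Qb 3
  have h1 := GalRep.cycChar_spec 3 σ 1 (ζ := ζ) (by rw [pow_one, hζ.pow_eq_one])
  have h2 := modularCyclotomicCharacter.spec Qb (IsAlgClosed.card_rootsOfUnity_eq Qb 3)
    (σ : Qb ≃+* Qb) (t := ((hζ.toRootsOfUnity : rootsOfUnity 3 Qb) : Qbˣ)) hζ.toRootsOfUnity.2
  change σ ζ = ζ ^ _ at h2
  rw [WeierstrassCurve.modThreeCyclotomicChar_apply]
  have hval : (φ (GalRep.cycChar 3 σ)).val = ((GalRep.cycChar 3 σ).toZModPow 1).val := by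
    show (ZMod.castHom (pow_one 3).symm.dvd (ZMod 3) _).val = _
    rw [ZMod.castHom_apply, ZMod.cast_eq_val, ZMod.val_natCast, Nat.mod_eq_of_lt]
    simpa using ZMod.val_lt ((GalRep.cycChar 3 σ).toZModPow 1)
  rw [hval]
  exact hζ.pow_inj (by simpa using ZMod.val_lt ((GalRep.cycChar 3 σ).toZModPow 1))
    (ZMod.val_lt _) (h1.symm.trans h2)

theorem unipotent_rho (hW : W.IsSemistableModel) {q : ℕ} (hq : q.Prime) (hq3 : q ≠ 3)
    {A : ValuationSubring Qb} (hA : A.LiesOverPrime q) {σ : GQ}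
    (hσ : σ ∈ A.inertiaSubgroupIn ℚ) : rho W hΔ σ ^ 3 = 1 := by
  set C := Descent3.torsionCoords W hΔ
  set M := Descent3.torsionMatrix W hΔ σ
  have hΔ0 : W.Δ ≠ 0 := fun h => hΔ (by rw [WeierstrassCurve.map_Δ, h, map_zero])
  have hfix : ∀ v : V2, M *ᵥ (M *ᵥ v - v) = M *ᵥ v - v := fun v => C.injective (by
    rw [C.equivariant, map_sub, C.equivariant]
    exact galois_sub_sub_of_semistable W hq hΔ0 (hW q hq)
      (fun hd => hq3 ((Nat.prime_dvd_prime_iff_eq hq Nat.prime_three).1 hd)) hA hσ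
      (Descent3.three_nsmul_j C v))
  refine Units.ext (Matrix.ext_iff_mulVec.mpr fun v => ?_)
  rw [Units.val_pow_eq_pow_val, coe_rho, Units.val_one, one_mulVec, pow_succ, pow_two,
    ← mulVec_mulVec, ← mulVec_mulVec]
  have h1 : M *ᵥ (M *ᵥ v) = M *ᵥ v + (M *ᵥ v - v) := by
    have := hfix v
    rw [mulVec_sub, sub_eq_iff_eq_add] at this
    rw [this, add_comm]
  rw [h1, mulVec_add, hfix v, h1]
  have h3 : ∀ z : V2, z + z + z = 0 := by decide
  linear_combination (norm := module) h3 (M *ᵥ v) - h3 v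

theorem unramified_rho {q : ℕ} (hq : q.Prime) (hq3 : q ≠ 3) (hgood : ¬ (q : ℤ) ∣ W.Δ)
    {A : ValuationSubring Qb} (hA : A.LiesOverPrime q) {σ : GQ}
    (hσ : σ ∈ A.inertiaSubgroupIn ℚ) : rho W hΔ σ = 1 := by
  set C := Descent3.torsionCoords W hΔ
  refine Units.ext (Matrix.ext_iff_mulVec.mpr fun v => C.injective ?_)
  rw [coe_rho, C.equivariant, Units.val_one, one_mulVec]
  have hmem : C.j v ∈ Submodule.torsionBy ℤ (qbarCurve W).Point ((3 : ℕ) : ℤ) := by
    rw [Submodule.mem_torsionBy_iff, natCast_zsmul]; exact Descent3.three_nsmul_j C v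
  exact congrArg Subtype.val (galoisRepUnramifiedAt_of_good W hq hgood
    (fun hd => hq3 ((Nat.prime_dvd_prime_iff_eq hq Nat.prime_three).1 hd)) A hA σ hσ
    ⟨C.j v, hmem⟩)

theorem det_complexConjugation (h3 : W.ModRepIsIrreducible 3) :
    (rho W hΔ complexConjugation : M2).det = -1 := by
  have : Fact (Nat.Prime 3) := ⟨Nat.prime_three⟩
  have h := Conductor.torsionRep_isOdd W (p := 3) hΔ (by norm_num) h3 _
    complexConjugation_mul_self GalRep.complexConjugation_ne_one'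
  rw [← h]
  exact LinearMap.det_toMatrix _ _

/-- Some inertia group at `q` acts nontrivially. -/
def IsRamified (q : ℕ) : Prop :=
  ∃ A : ValuationSubring Qb, A.LiesOverPrime q ∧ ∃ σ ∈ A.inertiaSubgroupIn ℚ, rho W hΔ σ ≠ 1

open Classical in
/-- The ramified primes other than `3`. -/
def ramPrimes : Finset ℕ := W.Δ.natAbs.primeFactors.filter fun q => q ≠ 3 ∧ IsRamified W hΔ q

theorem mem_ramPrimes_of_dvd {q : ℕ} (hq : q.Prime) (h : q ∣ ∏ p ∈ ramPrimes W hΔ, p) :
    q ∈ ramPrimes W hΔ := by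
  classical
  obtain ⟨p, hp, hqp⟩ := (hq.prime.dvd_finsetProd_iff _).1 h
  rwa [(Nat.prime_dvd_prime_iff_eq hq (Nat.prime_of_mem_primeFactors (Finset.mem_filter.1 hp).1)).1
    hqp]

/-- The data of `E[3]`. -/
def setup (hW : W.IsSemistableModel) (h3 : W.ModRepIsIrreducible 3) (hgood : W.IsGoodPrimeFor 3)
    (hss : (3 : ℤ) ∣ W.apOfModel 3) : Setup where
  ρ := rho W hΔ
  finiteLevel := finiteLevel_rho W hΔ
  surjective := surjective_of_supersingular (finiteLevel_rho W hΔ)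
    (fun _ hA => exists_orderOf_eight hΔ hgood (three_dvd_b₂ hgood hss) hA)
    (fun _ hq hq3 _ hA _ hσ => unipotent_rho W hΔ hW hq hq3 hA hσ)
    complexConjugation_mul_self (det_complexConjugation W hΔ h3)
  det_eq := det_rho W hΔ h3
  m := ∏ q ∈ ramPrimes W hΔ, q
  m_squarefree := by
    classical
    refine Finset.squarefree_prod_of_pairwise_isCoprime (fun p hp q hq hpq => ?_) fun p hp =>
      (Nat.prime_of_mem_primeFactors (Finset.mem_filter.1 hp).1).squarefree
    exact Nat.coprime_iff_isRelPrime.mp ((Nat.coprime_primes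
      (Nat.prime_of_mem_primeFactors (Finset.mem_filter.1 hp).1)
      (Nat.prime_of_mem_primeFactors (Finset.mem_filter.1 hq).1)).mpr hpq)
  three_not_dvd h := by
    classical
    exact (Finset.mem_filter.1 (mem_ramPrimes_of_dvd W hΔ Nat.prime_three h)).2.1 rfl
  unramified q hq hd A hA σ hσ := by
    classical
    have hq3 : q ≠ 3 := fun h => hd (by rw [h]; exact dvd_mul_right 3 _)
    by_contra hne
    have hΔ0 : W.Δ ≠ 0 := fun h => hΔ (by rw [WeierstrassCurve.map_Δ, h, map_zero])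
    have hbad : (q : ℤ) ∣ W.Δ := by
      by_contra hg
      exact hne (unramified_rho W hΔ hq hq3 hg hA hσ)
    refine hd ((Finset.dvd_prod_of_mem _ ?_).mul_left 3)
    exact Finset.mem_filter.2 ⟨Nat.mem_primeFactors.2
      ⟨hq, Int.natCast_dvd.1 hbad, Int.natAbs_ne_zero.2 hΔ0⟩, hq3, A, hA, σ, hσ, hne⟩
  ramified q hq hd B hB := by
    classical
    obtain ⟨A, hA, σ, hσ, hne⟩ := (Finset.mem_filter.1 (mem_ramPrimes_of_dvd W hΔ hq hd)).2.2
    obtain ⟨g, hg⟩ := LocalP.exists_conj_inertia hq hB hA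
    refine ⟨_, hg σ hσ, fun h => hne ?_⟩
    rw [map_mul, map_mul, map_inv] at h
    have := congrArg (fun z => rho W hΔ g * z * (rho W hΔ g)⁻¹) h
    simpa [mul_assoc] using this
  unipotent q hq hd A hA σ hσ := by
    classical
    exact unipotent_rho W hΔ hW hq (Finset.mem_filter.1 (mem_ramPrimes_of_dvd W hΔ hq hd)).2.1 hA hσ
  supersingular _ hA := exists_orderOf_eight hΔ hgood (three_dvd_b₂ hgood hss) hA

theorem dvd_Δ_of_dvd_setup (hW : W.IsSemistableModel) (h3 : W.ModRepIsIrreducible 3)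
    (hgood : W.IsGoodPrimeFor 3) (hss : (3 : ℤ) ∣ W.apOfModel 3) {q : ℕ} (hq : q.Prime)
    (h : q ∣ (setup W hΔ hW h3 hgood hss).m) : (q : ℤ) ∣ W.Δ := by
  classical
  exact Int.natCast_dvd.2
    (Nat.dvd_of_mem_primeFactors (Finset.mem_filter.1 (mem_ramPrimes_of_dvd W hΔ hq h)).1)

end FermatAgent.LT.Curve
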