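import Fermat.Agent.LT.Main
import Fermat.Agent.LT.Curve.Setup
import Fermat.Prelude.Def_FLTPrelim_Ramification

set_option autoImplicit false

/-!
# The curve form of the Langlands-Tunnell result

The shape of S50 for semistable curves with good supersingular reduction at `3`.
-/

noncomputable section

open WeierstrassCurve WeierstrassCurve.Affine WeierstrassCurve.Affine.Point
open scoped WeierstrassCurve.Affine

namespace FermatAgent.LT

/-- An element of order eight of `GL₂(𝔽₃)` fixes only the origin. -/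
theorem Curve.eq_zero_of_fixed {g : GL (Fin 2) (ZMod 3)} (hg : orderOf g = 8)
    {v : Fin 2 → ZMod 3} (hv : (g : Matrix (Fin 2) (Fin 2) (ZMod 3)).mulVec v = v) : v = 0 := by
  have key : ∀ t : GL2F3.Tup, ∀ a b : ZMod 3, GL2F3.tpow t 4 ≠ (1, 0, 0, 1) →
      GL2F3.tpow t 8 = (1, 0, 0, 1) → t.1 * a + t.2.1 * b = a → t.2.2.1 * a + t.2.2.2 * b = b →
      a = 0 ∧ b = 0 := by decide +kernel
  have hiff : ∀ k : ℕ, GL2F3.tpow (GL2F3.toTup (g : Matrix (Fin 2) (Fin 2) (ZMod 3))) k =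
      (1, 0, 0, 1) ↔ g ^ k = 1 := fun k => by
    rw [← GL2F3.toTup_pow, ← GL2F3.toTup_one, GL2F3.toTup_injective.eq_iff,
      ← Units.val_pow_eq_pow_val, Units.val_eq_one]
  have h := key (GL2F3.toTup (g : Matrix (Fin 2) (Fin 2) (ZMod 3))) (v 0) (v 1)
    (fun h => by have := orderOf_dvd_of_pow_eq_one ((hiff 4).1 h); rw [hg] at this; omega)
    ((hiff 8).2 (hg ▸ pow_orderOf_eq_one g))
    (by simpa [GL2F3.toTup, Matrix.mulVec, dotProduct, Fin.sum_univ_two] using congrFun hv 0)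
    (by simpa [GL2F3.toTup, Matrix.mulVec, dotProduct, Fin.sum_univ_two] using congrFun hv 1)
  funext i
  fin_cases i
  · exact h.1
  · exact h.2

/-- The data of a curve: `E[3]` gives a `Setup` whose Frobenius traces are the `a_ℓ`. -/
theorem exists_setup (W : WeierstrassCurve ℤ) (hΔ : W.Δ ≠ 0) (hW : W.IsSemistableModel)
    (h3 : W.ModRepIsIrreducible 3) (hgood : W.IsGoodPrimeFor 3) (hss : (3 : ℤ) ∣ W.apOfModel 3) :
    ∃ S : Setup, (∀ q : ℕ, q.Prime → q ∣ S.m → (q : ℤ) ∣ W.Δ) ∧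
      ∀ ℓ : ℕ, ℓ.Prime → W.IsGoodPrimeFor ℓ → ℓ ≠ 3 →
        ∀ A : ValuationSubring (AlgebraicClosure ℚ), A.LiesOverPrime ℓ → ∀ σ, A.IsFrobeniusAt σ ℓ →
          Matrix.trace ((S.ρ σ : GL (Fin 2) (ZMod 3)) : Matrix (Fin 2) (Fin 2) (ZMod 3)) =
            (W.apOfModel ℓ : ZMod 3) := by
  have hΔ' : (W.map (Int.castRingHom ℚ)).Δ ≠ 0 := by simpa using hΔ
  refine ⟨Curve.setup W hΔ' hW h3 hgood hss,
    fun q hq h => Curve.dvd_Δ_of_dvd_setup W hΔ' hW h3 hgood hss hq h,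
    fun ℓ hℓ hg hℓ3 A hA σ hσ => ?_⟩
  exact (Descent3.torsionMatrix_frobenius W hΔ' h3 hℓ hg hℓ3 hA hσ).1

/-- S50 for supersingular curves. -/
theorem residuallyModular_of_supersingular (W : WeierstrassCurve ℤ) (hΔ : W.Δ ≠ 0)
    (hW : W.IsSemistableModel) (h3 : W.ModRepIsIrreducible 3) (hgood : W.IsGoodPrimeFor 3)
    (hss : (3 : ℤ) ∣ W.apOfModel 3) :
    ∃ M : ℕ, 0 < M ∧ W.IsResiduallyModularOfLevel 3 M ∧
      (∀ q : ℕ, q.Prime → q ≠ 3 → ¬ q ^ 3 ∣ M) ∧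
      (3 ^ 2 ∣ M →
        ∀ A : ValuationSubring (AlgebraicClosure ℚ), A.LiesOverPrime 3 →
          ∀ x : Submodule.torsionBy ℤ
              ((W.map (Int.castRingHom ℚ))⁄(AlgebraicClosure ℚ)).Point (3 : ℕ),
            (∀ σ ∈ A.inertiaSubgroupIn ℚ, σ • x = x) → x = 0) := by
  obtain ⟨S, hm, htr⟩ := exists_setup W hΔ hW h3 hgood hss
  obtain ⟨M, g, 𝔪, hM, hcube, hg, hmax, h3m, hcong⟩ := S.isModular
  refine ⟨M, hM, ⟨g, 𝔪, hg, hmax, by exact_mod_cast h3m, fun ℓ hℓ hgd hℓM hℓ3 => ?_⟩, hcube,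
    fun _ A hA x hx => ?_⟩
  · obtain ⟨A, σ, hA, hσ⟩ := RT.exists_place_isFrobeniusAt hℓ
    have hnd : ¬ ℓ ∣ 3 * S.m := fun h => (hℓ.dvd_mul.1 h).elim
      (fun h' => hℓ3 ((Nat.prime_dvd_prime_iff_eq hℓ Nat.prime_three).1 h'))
      fun h' => hgd (hm ℓ hℓ h')
    obtain ⟨a, ha, hmem⟩ := hcong ℓ hℓ hnd hℓM A hA σ hσ
    refine ⟨a, ha, ?_⟩
    rw [htr ℓ hℓ hgd hℓ3 A hA σ hσ] at hmem
    obtain ⟨k, hk⟩ : (3 : ℤ) ∣ (((W.apOfModel ℓ : ZMod 3).val : ℕ) : ℤ) - W.apOfModel ℓ :=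
      (ZMod.intCast_zmod_eq_zero_iff_dvd _ 3).1 (by simp)
    have h0 : ((((W.apOfModel ℓ : ZMod 3).val : ℕ) : integralClosure ℤ ℂ) -
        ((W.apOfModel ℓ : ℤ) : integralClosure ℤ ℂ)) ∈ 𝔪 := by
      have : ((3 * k : ℤ) : integralClosure ℤ ℂ) ∈ 𝔪 := by
        push_cast; exact 𝔪.mul_mem_right _ h3m
      rw [← hk] at this
      push_cast at this ⊢
      exact this
    convert add_mem hmem h0 using 1
    ring
  · have hΔ' : (W.map (Int.castRingHom ℚ)).Δ ≠ 0 := by simpa using hΔ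
    obtain ⟨σ, hσ, hord⟩ := Curve.exists_orderOf_eight hΔ' hgood
      (Curve.three_dvd_b₂ hgood hss) hA
    set C := Descent3.torsionCoords W hΔ'
    obtain ⟨P, hP⟩ := x
    obtain ⟨v, rfl⟩ := C.surjective P (by
      rw [Submodule.mem_torsionBy_iff, natCast_zsmul] at hP; exact hP)
    have hv := Curve.eq_zero_of_fixed hord (v := v) (C.injective
      ((C.equivariant σ v).trans (congrArg Subtype.val (hx σ hσ))))
    exact Subtype.ext ((congrArg C.j hv).trans (map_zero C.j))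

end FermatAgent.LT
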