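import Fermat.Agent.Descent3.Torsion
import Fermat.Agent.LT.Base.GL2F3

set_option autoImplicit false

/-!
# Supersingular reduction at `3`: inertia contains an element of order eight on `E[3]`
-/

noncomputable section

open WeierstrassCurve WeierstrassCurve.Affine Matrix Polynomial
open scoped WeierstrassCurve.Affine

namespace FermatAgent.LT.Curve

open FermatAgent.Local

local notation "Qb" => AlgebraicClosure ℚ
local notation "GQ" => AlgebraicClosure ℚ ≃ₐ[ℚ] AlgebraicClosure ℚ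
local notation "M2" => Matrix (Fin 2) (Fin 2) (ZMod 3)

variable {W : WeierstrassCurve ℤ}

theorem b₂_of_count : ∀ a₁ a₂ a₃ a₄ a₆ : ZMod 3,
    (⟨a₁, a₂, a₃, a₄, a₆⟩ : WeierstrassCurve (ZMod 3)).Δ ≠ 0 →
    (Finset.univ.filter fun xy : ZMod 3 × ZMod 3 =>
      xy.2 ^ 2 + a₁ * xy.1 * xy.2 + a₃ * xy.2 =
        xy.1 ^ 3 + a₂ * xy.1 ^ 2 + a₄ * xy.1 + a₆).card % 3 = 0 →
    (⟨a₁, a₂, a₃, a₄, a₆⟩ : WeierstrassCurve (ZMod 3)).b₂ = 0 := by
  decide +kernel

/-- `a₃ ≡ 0` forces the Hasse invariant to vanish. -/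
theorem three_dvd_b₂ (hgood : W.IsGoodPrimeFor 3) (hss : (3 : ℤ) ∣ W.apOfModel 3) :
    (3 : ℤ) ∣ W.b₂ := by
  classical
  have : Fact (Nat.Prime 3) := ⟨Nat.prime_three⟩
  set E := W.reductionMod 3 with hE
  have hΔ : E.Δ ≠ 0 := by
    rw [hE, WeierstrassCurve.reductionMod, WeierstrassCurve.map_Δ, eq_intCast]
    exact fun h => hgood ((ZMod.intCast_zmod_eq_zero_iff_dvd _ _).1 h)
  let e : E.toAffine.Point ≃ Option {xy : ZMod 3 × ZMod 3 // E.toAffine.Equation xy.1 xy.2} :=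
    { toFun := fun P => match P with
        | .zero => none
        | .some x y h => some ⟨(x, y), h.1⟩
      invFun := fun o => match o with
        | none => .zero
        | some ⟨(x, y), h⟩ => .some x y ((equation_iff_nonsingular_of_Δ_ne_zero hΔ).1 h)
      left_inv := fun P => by cases P <;> rfl
      right_inv := fun o => by rcases o with _ | ⟨⟨x, y⟩, h⟩ <;> rfl }
  have hN : E.card = (Finset.univ.filter fun xy : ZMod 3 × ZMod 3 =>
      xy.2 ^ 2 + E.a₁ * xy.1 * xy.2 + E.a₃ * xy.2 =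
        xy.1 ^ 3 + E.a₂ * xy.1 ^ 2 + E.a₄ * xy.1 + E.a₆).card + 1 := by
    rw [WeierstrassCurve.card, Nat.card_congr e, Finite.card_option, Nat.card_eq_fintype_card,
      Fintype.card_subtype]
    simp only [equation_iff]
  rw [WeierstrassCurve.apOfModel, ← hE, WeierstrassCurve.traceOfFrobenius, hN, Nat.card_zmod] at hss
  push_cast at hss
  have hb := b₂_of_count E.a₁ E.a₂ E.a₃ E.a₄ E.a₆ hΔ (by omega)
  change E.b₂ = 0 at hb
  rw [hE, WeierstrassCurve.reductionMod, WeierstrassCurve.map_b₂, eq_intCast] at hb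
  exact (ZMod.intCast_zmod_eq_zero_iff_dvd _ _).1 hb

variable {A : ValuationSubring Qb}

/-- In the supersingular case all `3`-torsion reduces to the origin. -/
theorem inE1_of_supersingular (hgood : W.IsGoodPrimeFor 3) (hb₂ : (3 : ℤ) ∣ W.b₂)
    (hA : A.LiesOverPrime 3) {P : (qbarCurve W).Point} (hP : 3 • P = 0) :
    InE1 A (qbarCurve W) P := by
  rcases P with _ | ⟨x, y, h⟩
  · trivial
  intro hx
  have hroot : (qbarCurve W).Ψ₃.eval x = 0 := by
    have := (nsmul_eq_zero_iff h 3).mp hP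
    rw [show ((3 : ℕ) : ℤ) = 3 from rfl] at this
    simpa [WeierstrassCurve.ΨSq, WeierstrassCurve.preΨ, WeierstrassCurve.preΨ',
      show ¬ Even (3 : ℤ) by decide] using this
  have hb₈ : A.valuation (W.b₈ : Qb) = 1 := val_intCast_eq_one Nat.prime_three hA fun h8 =>
    hgood (Descent3.three_dvd_of_unit_free hb₂ h8).1
  obtain ⟨c, hc⟩ := hb₂
  rw [Descent3.eval_Ψ₃, hc] at hroot
  have h3 : A.valuation (3 : Qb) < 1 := by simpa using val_natCast_lt_one hA
  have hmem : x ^ 4 + (c : Qb) * x ^ 3 + (W.b₄ : Qb) * x ^ 2 + (W.b₆ : Qb) * x ∈ A :=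
    A.add_mem _ _ (A.add_mem _ _ (A.add_mem _ _ (pow_mem hx _)
      (A.mul_mem _ _ (intCast_mem A _) (pow_mem hx _)))
      (A.mul_mem _ _ (intCast_mem A _) (pow_mem hx _))) (A.mul_mem _ _ (intCast_mem A _) hx)
  have e : (W.b₈ : Qb) =
      -(3 * (x ^ 4 + (c : Qb) * x ^ 3 + (W.b₄ : Qb) * x ^ 2 + (W.b₆ : Qb) * x)) := by
    push_cast at hroot
    linear_combination hroot
  rw [e, Valuation.map_neg, map_mul] at hb₈
  exact (ne_of_lt (val_mul_lt_one_of_lt_of_le h3 (val_le_one_of_mem hmem))) hb₈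

/-- A matrix of determinant `-1` and nonzero trace has order eight. -/
theorem orderOf_eq_eight {g : GL (Fin 2) (ZMod 3)} (hd : (g : M2).det = -1)
    (ht : (g : M2).trace ≠ 0) : orderOf g = 8 := by
  have key : ∀ t : GL2F3.Tup, GL2F3.tdet t = -1 → t.1 + t.2.2.2 ≠ 0 →
      GL2F3.tpow t 4 ≠ (1, 0, 0, 1) ∧ GL2F3.tpow t 8 = (1, 0, 0, 1) := by decide +kernel
  obtain ⟨h4, h8⟩ := key (GL2F3.toTup (g : M2)) (by rw [GL2F3.tdet_toTup, hd])
    (by rwa [Matrix.trace_fin_two] at ht)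
  have hiff : ∀ k : ℕ, GL2F3.tpow (GL2F3.toTup (g : M2)) k = (1, 0, 0, 1) ↔ g ^ k = 1 := fun k => by
    rw [← GL2F3.toTup_pow, ← GL2F3.toTup_one, GL2F3.toTup_injective.eq_iff,
      ← Units.val_pow_eq_pow_val, Units.val_eq_one]
  exact orderOf_eq_prime_pow (p := 2) (n := 2) (fun h => h4 ((hiff 4).2 h)) ((hiff 8).1 h8)

/-- Some element of inertia at `3` has order eight on `E[3]`. -/
theorem exists_orderOf_eight (hΔ : (W.map (Int.castRingHom ℚ)).Δ ≠ 0)
    (hgood : W.IsGoodPrimeFor 3) (hb₂ : (3 : ℤ) ∣ W.b₂) (hA : A.LiesOverPrime 3) :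
    ∃ σ ∈ A.inertiaSubgroupIn ℚ,
      orderOf ((Descent3.torsionMatrix W hΔ).toHomUnits σ : GL (Fin 2) (ZMod 3)) = 8 := by
  have hss : Descent3.IsSupersingularThree (Descent3.torsionMatrix W hΔ) A :=
    Descent3.isSupersingularThree_of_inE1 (LocalP.qbarCurve_Δ_ne_zero hΔ)
      (fun h _ => hgood h) hA (Descent3.torsionCoords W hΔ)
      fun v => inE1_of_supersingular hgood hb₂ hA (Descent3.three_nsmul_j _ v)
  obtain ⟨σ, hσ, hd, ht⟩ := Descent3.ss_data hss (by simpa using val_natCast_lt_one hA)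
  exact ⟨σ, hσ, orderOf_eq_eight (by simpa using hd) (by simpa using ht)⟩

end FermatAgent.LT.Curve
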